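/-
PROJECT T (S56), block (a1-II) `S56/Base`, the GLOBAL half of the dictionary `Base/Dict`
(chief #4258 (4): (D-a) (D-b) (D-c)).

The Selmer groups of the cocycle model `S56/Coh` (global cocycles `GQ → X` which are unramified
outside a finite set `Smin : Finset ℕ`, modulo global coboundaries) against the level-constant
cohomology of `G_S` used by the D-layer (`S : Finset Nat.Primes`):

* `SameSet S Smin`  : (D-a) the two conventions for the set of primes agree on primes;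
* `LevelTriv S X`   : a level of `G_S` acts trivially on `X` (so `X` is unramified outside `S`);
* `mem_selZ_iff`    : `SelZ Smin (ofLocal Lq) = {c ∈ Z₁ (levelsS S) X | res_q c ∈ Lq q, q ∈ Smin}`;
* `selFullEquiv`, `card_sel_full`     : (D-b) no condition at `Smin`  = `H¹(G_S, X)`;
* `selStrictEquiv`, `card_sel_strict` : (D-c) locally trivial at `Smin` = `Ш¹_S(X)` (`D.sha1`).

The coefficient ring of the D-layer is reached through `CoeffChange.resScalars φ`, `φ : R →+* k`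
arbitrary (the chief's `AK X` is `φ := TwistDict.phiK k p (ZpModel.phi p)`).
-/
import Fermat.Agent.S56.Base.Pairing.Dict.Glob
import Fermat.Agent.S56.Base.Pairing.Dict.Loc
import Fermat.Agent.S56.Coh.Lemmas

set_option autoImplicit false

namespace Fermat.Agent.S56.Base.Dict.Global

open CategoryTheory groupCohomology
open Fermat.Agent.CFT.LC Fermat.Agent.CFT.Bridge Fermat.Agent.CFT.LocalBridge
open Fermat.Agent.CFT.D Fermat.Agent.CFT.D.CoeffChange Fermat.Agent.CFT.D.Reduce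
open Fermat.Agent.S56.Coh Fermat.Agent.S56.Base.Pairing.Dict

variable {k : Type} [CommRing k] {R : Type} [CommRing R] (φ : R →+* k)
variable (S : Finset Nat.Primes) (Smin : Finset ℕ) (X : Rep.{0} k GQ)

/-- (D-a) the two conventions for the finite set of primes agree (on primes). -/
def SameSet : Prop := ∀ (q : ℕ) (h : q.Prime), q ∈ Smin ↔ (⟨q, h⟩ : Nat.Primes) ∈ S

/-- a level of `G_S` acts trivially on `X` -/
def LevelTriv : Prop := ∃ U ∈ (levelsS S).sets, ∀ s ∈ U, ∀ m : X, X.ρ s m = m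

lemma sameSet_image [DecidableEq ℕ] : SameSet S (S.image fun q : Nat.Primes => (q : ℕ)) := by
  intro q h
  rw [Finset.mem_image]
  constructor
  · rintro ⟨q', hq', rfl⟩
    exact hq'
  · intro hq
    exact ⟨⟨q, h⟩, hq, rfl⟩

/-! ### Levels of `G_S` -/

lemma mem_levelsAll {U : Subgroup GQ} (hU : U ∈ (levelsS S).sets) : U ∈ levelsAll.sets := by
  obtain ⟨hn, F, hF, rfl⟩ := hU
  exact ⟨hn, F, hF.1, rfl⟩

lemma Iq_le_level {U : Subgroup GQ} (hU : U ∈ (levelsS S).sets) (q : ℕ) [Fact q.Prime]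
    (hq : (⟨q, Fact.out⟩ : Nat.Primes) ∉ S) : Iq q ≤ U := by
  obtain ⟨_, F, hF, rfl⟩ := hU
  exact hF.2 ⟨q, Fact.out⟩ hq (padicPlace q) (liesOverPrime_padicPlace q)

lemma Z₁_levelsS_le_Z1g : Z₁ (levelsS S) X ≤ Z1g X := by
  intro c hc
  rw [mem_Z₁_iff] at hc ⊢
  obtain ⟨U, hU, h⟩ := hc.2
  exact ⟨hc.1, U, mem_levelsAll S hU, h⟩

lemma map_one_eq_zero {c : GQ → X} (hc : c ∈ cocycles₁ X) : c 1 = 0 := by
  have h := (mem_cocycles₁_iff c).1 hc 1 1
  rw [mul_one, map_one, Module.End.one_apply] at h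
  exact left_eq_add.mp h

lemma isUnramAt_of_mem_Z₁ {c : GQ → X} (hc : c ∈ Z₁ (levelsS S) X) (q : ℕ) [Fact q.Prime]
    (hq : (⟨q, Fact.out⟩ : Nat.Primes) ∉ S) : IsUnramAt q c := by
  rw [mem_Z₁_iff] at hc
  obtain ⟨U, hU, h1, _⟩ := hc.2
  refine ⟨0, fun s hs => ?_⟩
  have h := h1 1 s (Iq_le_level S hU q hq hs)
  rw [one_mul, map_one_eq_zero X hc.1] at h
  rw [h, map_zero, sub_zero]

variable {S X}

lemma B₁_levelsS_eq_B1g (hlev : LevelTriv S X) : B₁ (levelsS S) X = B1g X := by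
  obtain ⟨U, hU, hUX⟩ := hlev
  ext f
  rw [mem_B₁_iff, mem_B₁_iff]
  constructor
  · rintro ⟨a, _, rfl⟩
    exact ⟨a, ⟨U, mem_levelsAll S hU, fun s hs => hUX s hs a⟩, rfl⟩
  · rintro ⟨a, _, rfl⟩
    exact ⟨a, ⟨U, hU, fun s hs => hUX s hs a⟩, rfl⟩

variable {Smin}

/-- **Selmer cocycles are the level-constant cocycles of `G_S` with the local conditions.** -/
theorem mem_selZ_iff (hS : SameSet S Smin) (hlev : LevelTriv S X)
    (Lq : ∀ (q : ℕ) [Fact q.Prime], Submodule k (↥(Dq q) → resRep (Dq q) X)) (c : GQ → X) :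
    c ∈ SelZ Smin (LocCond.ofLocal Lq) ↔
      c ∈ Z₁ (levelsS S) X ∧ ∀ (q : ℕ) [Fact q.Prime], q ∈ Smin → resFun (Dq q) c ∈ Lq q := by
  obtain ⟨U, hU, hUX⟩ := hlev
  constructor
  · rintro ⟨hc, hu, hL⟩
    refine ⟨Glob.mem_Z₁_levelsS S X ⟨U, mem_levelsAll S hU, hUX⟩
      (fun q _ hq s hs m => hUX s (Iq_le_level S hU q hq hs) m) c hc
      (fun q _ hq => hu q fun h => hq ((hS q Fact.out).1 h)), fun q _ hq => ?_⟩
    exact (mem_ofLocal_L_iff Lq q c).1 (hL q hq)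
  · rintro ⟨hc, hL⟩
    refine ⟨Z₁_levelsS_le_Z1g S X hc,
      fun q _ hq => isUnramAt_of_mem_Z₁ S X hc q fun h => hq ((hS q Fact.out).2 h),
      fun q hq => ?_⟩
    by_cases hqp : q.Prime
    · have : Fact q.Prime := ⟨hqp⟩
      exact (mem_ofLocal_L_iff Lq q c).2 (hL q hq)
    · rw [ofLocal_L_of_not_prime _ hqp]
      exact Submodule.mem_top

lemma selZ_le_Z₁ (hS : SameSet S Smin) (hlev : LevelTriv S X)
    (Lq : ∀ (q : ℕ) [Fact q.Prime], Submodule k (↥(Dq q) → resRep (Dq q) X)) :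
    SelZ Smin (LocCond.ofLocal Lq) ≤ Z₁ (levelsS S) X :=
  fun c hc => ((mem_selZ_iff hS hlev Lq c).1 hc).1

/-! ### The class map -/

/-- the class in `H¹(G_S, X)` (coefficients restricted along `φ`) of a Selmer cocycle -/
noncomputable def clsS (hS : SameSet S Smin) (hlev : LevelTriv S X)
    (Lq : ∀ (q : ℕ) [Fact q.Prime], Submodule k (↥(Dq q) → resRep (Dq q) X)) :
    ↥(SelZ Smin (LocCond.ofLocal Lq)) →+ H (levelsS S) (resScalars φ X) 1 :=
  ((hEquiv φ (levelsS S) X 1).toAddMonoidHom.comp (H1π' (levelsS S) X).toAddMonoidHom).comp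
    (Submodule.inclusion (selZ_le_Z₁ hS hlev Lq)).toAddMonoidHom

lemma clsS_apply (hS : SameSet S Smin) (hlev : LevelTriv S X)
    (Lq : ∀ (q : ℕ) [Fact q.Prime], Submodule k (↥(Dq q) → resRep (Dq q) X))
    (c : ↥(SelZ Smin (LocCond.ofLocal Lq))) :
    clsS φ hS hlev Lq c =
      hEquiv φ (levelsS S) X 1 (H1π' (levelsS S) X ⟨c.1, selZ_le_Z₁ hS hlev Lq c.2⟩) := rfl

lemma clsS_eq_zero_iff (hS : SameSet S Smin) (hlev : LevelTriv S X)
    (Lq : ∀ (q : ℕ) [Fact q.Prime], Submodule k (↥(Dq q) → resRep (Dq q) X))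
    (c : ↥(SelZ Smin (LocCond.ofLocal Lq))) :
    clsS φ hS hlev Lq c = 0 ↔ c.1 ∈ B1g X := by
  rw [clsS_apply, AddEquiv.map_eq_zero_iff, H1π'_eq_zero_iff, B₁_levelsS_eq_B1g hlev]

/-- the class map on the Selmer group -/
noncomputable def clsSel (hS : SameSet S Smin) (hlev : LevelTriv S X)
    (Lq : ∀ (q : ℕ) [Fact q.Prime], Submodule k (↥(Dq q) → resRep (Dq q) X)) :
    Sel Smin (LocCond.ofLocal Lq) →+ H (levelsS S) (resScalars φ X) 1 :=
  QuotientAddGroup.lift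
    ((B1g X).comap (SelZ Smin (LocCond.ofLocal Lq)).subtype).toAddSubgroup
    (clsS φ hS hlev Lq)
    (by
      intro c hc
      rw [AddMonoidHom.mem_ker, clsS_eq_zero_iff]
      exact hc)

lemma clsSel_mk (hS : SameSet S Smin) (hlev : LevelTriv S X)
    (Lq : ∀ (q : ℕ) [Fact q.Prime], Submodule k (↥(Dq q) → resRep (Dq q) X))
    (c : ↥(SelZ Smin (LocCond.ofLocal Lq))) :
    clsSel φ hS hlev Lq (Submodule.Quotient.mk c) = clsS φ hS hlev Lq c := rfl

lemma clsSel_injective (hS : SameSet S Smin) (hlev : LevelTriv S X)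
    (Lq : ∀ (q : ℕ) [Fact q.Prime], Submodule k (↥(Dq q) → resRep (Dq q) X)) :
    Function.Injective (clsSel φ hS hlev Lq) := by
  rw [injective_iff_map_eq_zero]
  intro x hx
  obtain ⟨c, rfl⟩ := Submodule.Quotient.mk_surjective _ x
  rw [clsSel_mk, clsS_eq_zero_iff] at hx
  rw [Submodule.Quotient.mk_eq_zero, Submodule.mem_comap]
  exact hx

/-- the range of the class map: the classes satisfying the local conditions -/
lemma mem_range_clsSel_iff (hS : SameSet S Smin) (hlev : LevelTriv S X)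
    (Lq : ∀ (q : ℕ) [Fact q.Prime], Submodule k (↥(Dq q) → resRep (Dq q) X))
    (y : H (levelsS S) (resScalars φ X) 1) :
    y ∈ (clsSel φ hS hlev Lq).range ↔
      ∃ c : ↥(Z₁ (levelsS S) X), hEquiv φ (levelsS S) X 1 (H1π' (levelsS S) X c) = y ∧
        ∀ (q : ℕ) [Fact q.Prime], q ∈ Smin → resFun (Dq q) c.1 ∈ Lq q := by
  constructor
  · rintro ⟨x, rfl⟩
    obtain ⟨c, rfl⟩ := Submodule.Quotient.mk_surjective _ x
    exact ⟨⟨c.1, selZ_le_Z₁ hS hlev Lq c.2⟩, rfl, ((mem_selZ_iff hS hlev Lq c.1).1 c.2).2⟩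
  · rintro ⟨c, rfl, hc⟩
    exact ⟨Submodule.Quotient.mk ⟨c.1, (mem_selZ_iff hS hlev Lq c.1).2 ⟨c.2, hc⟩⟩, rfl⟩

/-! ### (D-b): no condition -/

lemma clsSel_full_surjective (hS : SameSet S Smin) (hlev : LevelTriv S X) :
    Function.Surjective (clsSel φ hS hlev fun q _ => Z1 (Dq q) X) := by
  intro y
  obtain ⟨z, rfl⟩ := (hEquiv φ (levelsS S) X 1).surjective y
  obtain ⟨c, rfl⟩ := H1π'_surjective (levelsS S) X z
  exact (AddMonoidHom.mem_range).1 ((mem_range_clsSel_iff φ hS hlev _ _).2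
    ⟨c, rfl, fun q _ _ => resFun_mem_Z1 _ (Z₁_levelsS_le_Z1g S X c.2)⟩)

/-- **(D-b)** the Selmer group with no condition at `Smin` is `H¹(G_S, X)`. -/
noncomputable def selFullEquiv (hS : SameSet S Smin) (hlev : LevelTriv S X) :
    Sel Smin (LocCond.ofLocal fun q _ => Z1 (Dq q) X) ≃+ H (levelsS S) (resScalars φ X) 1 :=
  AddEquiv.ofBijective (clsSel φ hS hlev fun q _ => Z1 (Dq q) X)
    ⟨clsSel_injective φ hS hlev _, clsSel_full_surjective φ hS hlev⟩

lemma selFullEquiv_mk (hS : SameSet S Smin) (hlev : LevelTriv S X)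
    (c : ↥(SelZ Smin (LocCond.ofLocal fun q _ => Z1 (Dq q) X))) :
    selFullEquiv φ hS hlev (Submodule.Quotient.mk c) =
      hEquiv φ (levelsS S) X 1 (H1π' (levelsS S) X ⟨c.1, selZ_le_Z₁ hS hlev _ c.2⟩) := rfl

/-- **(D-b)**, cardinalities. -/
theorem card_sel_full (hS : SameSet S Smin) (hlev : LevelTriv S X) :
    Nat.card (Sel Smin (LocCond.ofLocal fun q _ => Z1 (Dq q) X)) =
      Nat.card (H (levelsS S) (resScalars φ X) 1) :=
  Nat.card_congr (selFullEquiv φ hS hlev).toEquiv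

/-! ### (D-c): locally trivial -/

/-- the localisation at `q ∈ S` of the class of a level-constant cocycle vanishes iff the
restriction of the cocycle to `D_q` is a coboundary -/
lemma resv_cls_eq_zero_iff (c : ↥(Z₁ (levelsS S) X)) (v : ↥S) :
    haveI : Fact ((v.1 : ℕ)).Prime := ⟨v.1.2⟩
    resv (rv S) (hrv S) v (resScalars φ X) 1
        (hEquiv φ (levelsS S) X 1 (H1π' (levelsS S) X c)) = 0 ↔
      resFun (Dq (v.1 : ℕ)) c.1 ∈ B1 (Dq (v.1 : ℕ)) X := by
  have : Fact ((v.1 : ℕ)).Prime := ⟨v.1.2⟩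
  have h := Loc.map_cls_eq φ X S v ⟨c.1, Z₁_levelsS_le_Z1g S X c.2⟩ c.2
  have h2 := Loc.clsq_eq_zero_iff φ (v.1 : ℕ) X
    (resZ (Dq (v.1 : ℕ)) X ⟨c.1, Z₁_levelsS_le_Z1g S X c.2⟩)
  constructor
  · intro h0
    exact h2.1 (h.symm.trans h0)
  · intro h0
    exact h.trans (h2.2 h0)

lemma range_clsSel_strict (hS : SameSet S Smin) (hlev : LevelTriv S X) :
    (clsSel φ hS hlev fun q _ => B1 (Dq q) X).range = sha1 (rv S) (hrv S) (resScalars φ X) := by
  ext y
  rw [mem_range_clsSel_iff, mem_sha1_iff]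
  constructor
  · rintro ⟨c, rfl, hc⟩ v
    have : Fact ((v.1 : ℕ)).Prime := ⟨v.1.2⟩
    rw [resv_cls_eq_zero_iff]
    exact hc (v.1 : ℕ) ((hS (v.1 : ℕ) v.1.2).2 v.2)
  · intro hy
    obtain ⟨z, rfl⟩ := (hEquiv φ (levelsS S) X 1).surjective y
    obtain ⟨c, rfl⟩ := H1π'_surjective (levelsS S) X z
    refine ⟨c, rfl, fun q hq hqS => ?_⟩
    have h := hy ⟨⟨q, hq.out⟩, (hS q hq.out).1 hqS⟩
    rw [resv_cls_eq_zero_iff] at h
    exact h

/-- **(D-c)** the Selmer group with the strict condition at `Smin` is `Ш¹_S(X)`. -/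
noncomputable def selStrictEquiv (hS : SameSet S Smin) (hlev : LevelTriv S X) :
    Sel Smin (LocCond.ofLocal fun q _ => B1 (Dq q) X) ≃+
      ↥(sha1 (rv S) (hrv S) (resScalars φ X)) :=
  (AddEquiv.ofBijective (clsSel φ hS hlev fun q _ => B1 (Dq q) X).rangeRestrict
    ⟨AddMonoidHom.rangeRestrict_injective_iff.2 (clsSel_injective φ hS hlev _),
      AddMonoidHom.rangeRestrict_surjective _⟩).trans
    (AddEquiv.addSubgroupCongr (range_clsSel_strict φ hS hlev))

lemma selStrictEquiv_mk (hS : SameSet S Smin) (hlev : LevelTriv S X)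
    (c : ↥(SelZ Smin (LocCond.ofLocal fun q _ => B1 (Dq q) X))) :
    (selStrictEquiv φ hS hlev (Submodule.Quotient.mk c) : H (levelsS S) (resScalars φ X) 1) =
      hEquiv φ (levelsS S) X 1 (H1π' (levelsS S) X ⟨c.1, selZ_le_Z₁ hS hlev _ c.2⟩) := rfl

/-- **(D-c)**, cardinalities. -/
theorem card_sel_strict (hS : SameSet S Smin) (hlev : LevelTriv S X) :
    Nat.card (Sel Smin (LocCond.ofLocal fun q _ => B1 (Dq q) X)) =
      Nat.card ↥(sha1 (rv S) (hrv S) (resScalars φ X)) :=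
  Nat.card_congr (selStrictEquiv φ hS hlev).toEquiv

end Fermat.Agent.S56.Base.Dict.Global
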